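import Fermat.Agent.Subspace.Main

/-!
# Repetitions among the first digits of algebraic numbers

If integers `P N` approximate `α * b ^ N` boundedly and for arbitrarily large `m` two windows of
length `m` starting at `i < j ≤ C m` agree, the points `(b ^ j, b ^ i, P j - P i)` are so close to
the kernel of `α x₀ - α x₁ - x₂` that, by the subspace theorem, an algebraic `α` is rational
(Adamczewski and Bugeaud).
-/

set_option autoImplicit false

noncomputable section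

namespace FA.DigitComplexity

open Finset Matrix FA.Subspace FA.Perfect

/-- A single base with the coordinate forms. -/
def onePlace (b : ℕ) (hb : 2 ≤ b) (N : ℕ) : Places 1 N where
  base := fun _ => b
  two_le _ := hb
  coprime l l' h := absurd (Subsingleton.elim l l') h
  mat _ := 1
  isUnit_det _ := by simp

theorem divides_onePlace {b N : ℕ} (hb : 2 ≤ b) {e : Fin N → ℕ} {x : Fin N → ℤ}
    (h : ∀ i, (b : ℤ) ^ e i ∣ x i) : (onePlace b hb N).Divides (fun _ => e) x := fun l i => by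
  simpa [onePlace] using h i

theorem vol_onePlace {b N : ℕ} (hb : 2 ≤ b) (e : Fin N → ℕ) :
    ((onePlace b hb N).vol fun _ => e : ℝ) = (b : ℝ) ^ ∑ i, e i := by
  simp [Places.vol, onePlace]

/-- Infinitely many solutions have infinitely many on one hyperplane. -/
theorem exists_infinite_hyperplane {n s : ℕ} (hn : 1 ≤ n) (Pl : Places s (n + 1))
    {L : Matrix (Fin (n + 1)) (Fin (n + 1)) ℝ} (hL : L.det ≠ 0)
    (halg : ∀ i j, IsAlgebraic ℚ (L i j)) {δ : ℝ} (hδ : 0 < δ) {E : Set ℕ} (hE : E.Infinite)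
    (x : ℕ → Fin (n + 1) → ℤ) (e : ℕ → Fin s → Fin (n + 1) → ℕ) (hx : ∀ m ∈ E, x m ≠ 0)
    (hdiv : ∀ m ∈ E, Pl.Divides (e m) (x m))
    (hlt : ∀ m ∈ E,
      ∏ i, |∑ k, L i k * (x m k : ℝ)| < Pl.vol (e m) * ‖castVec (x m)‖ ^ (-δ)) :
    ∃ v : Fin (n + 1) → ℤ, v ≠ 0 ∧ {m ∈ E | v ⬝ᵥ x m = 0}.Infinite := by
  obtain ⟨V, hV, h⟩ := finite_subspaces_places hn Pl L hL halg hδ
  by_contra! hfin
  refine hE (((V.finite_toSet).biUnion fun v hv => hfin v (hV v hv)).subset fun m hm => ?_)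
  obtain ⟨v, hv, hvx⟩ := h (x m) (hx m hm) (e m) (hdiv m hm) (hlt m hm)
  simp only [Set.mem_iUnion, exists_prop]
  exact ⟨v, hv, hm, hvx⟩

/-- A quantity below every `A / b ^ m` vanishes. -/
theorem eq_zero_of_le_div_pow {b : ℕ} (hb : 2 ≤ b) {E : Set ℕ} (hE : E.Infinite) {A z : ℝ}
    (h : ∀ m ∈ E, |z| ≤ A / (b : ℝ) ^ m) : z = 0 := by
  by_contra hz
  obtain ⟨M, hM⟩ := pow_unbounded_of_one_lt (A / |z|) (show (1 : ℝ) < b by exact_mod_cast hb)
  obtain ⟨m, hm, hMm⟩ := hE.exists_gt M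
  have hb1 : (1 : ℝ) ≤ b := by exact_mod_cast (show 1 ≤ b by omega)
  have h1 := hM.trans_le (pow_le_pow_right₀ hb1 hMm.le)
  rw [div_lt_iff₀ (abs_pos.2 hz)] at h1
  have h2 := h m hm
  rw [le_div_iff₀ (pow_pos (zero_lt_one.trans_le hb1) m)] at h2
  linarith

variable {b : ℕ} {α A : ℝ} {P : ℕ → ℤ}

/-- Equal windows give a small linear form. -/
theorem abs_form_le (hb : 2 ≤ b) (hP : ∀ N, |α * (b : ℝ) ^ N - P N| ≤ A) {i j m : ℕ}
    (h : P (j + m) - (b : ℤ) ^ m * P j = P (i + m) - (b : ℤ) ^ m * P i) :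
    |α * (b : ℝ) ^ j - α * (b : ℝ) ^ i - ((P j - P i : ℤ) : ℝ)| ≤ 2 * A / (b : ℝ) ^ m := by
  have hbm : (0 : ℝ) < (b : ℝ) ^ m := pow_pos (by exact_mod_cast (show 0 < b by omega)) m
  have hR : (P (j + m) : ℝ) - (b : ℝ) ^ m * P j = (P (i + m) : ℝ) - (b : ℝ) ^ m * P i := by
    exact_mod_cast h
  rw [le_div_iff₀ hbm, ← abs_of_pos hbm, ← abs_mul,
    show (α * (b : ℝ) ^ j - α * (b : ℝ) ^ i - ((P j - P i : ℤ) : ℝ)) * (b : ℝ) ^ m =
      (α * (b : ℝ) ^ (j + m) - P (j + m)) - (α * (b : ℝ) ^ (i + m) - P (i + m)) by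
      rw [pow_add, pow_add]; push_cast; linear_combination hR]
  exact (abs_sub _ _).trans ((add_le_add (hP _) (hP _)).trans_eq (two_mul A).symm)

theorem abs_sub_le (hb : 2 ≤ b) (hP : ∀ N, |α * (b : ℝ) ^ N - P N| ≤ A) {i j : ℕ} (hij : i ≤ j) :
    |((P j - P i : ℤ) : ℝ)| ≤ (2 * |α| + 2 * A) * (b : ℝ) ^ j := by
  have hb1 : (1 : ℝ) ≤ b := by exact_mod_cast (show 1 ≤ b by omega)
  have hA : 0 ≤ A := (abs_nonneg _).trans (hP 0)
  have h1 : ∀ N ≤ j, |(P N : ℝ)| ≤ (|α| + A) * (b : ℝ) ^ j := fun N hN => by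
    have h3 := abs_sub_abs_le_abs_sub (P N : ℝ) (α * (b : ℝ) ^ N)
    rw [abs_sub_comm (P N : ℝ), abs_mul, abs_of_nonneg (pow_nonneg (zero_le_one.trans hb1) N)]
      at h3
    linarith [hP N, mul_le_mul_of_nonneg_left (pow_le_pow_right₀ hb1 hN) (abs_nonneg α),
      le_mul_of_one_le_right hA (one_le_pow₀ hb1 (n := j))]
  push_cast
  refine (abs_sub _ _).trans ((add_le_add (h1 j le_rfl) (h1 i hij)).trans_eq ?_)
  ring

/-- For `m` large the points are small solutions. -/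
theorem small_solution (hb : 2 ≤ b) {K A' X δ : ℝ} {C m j : ℕ} (hK : 1 ≤ K) (hA : 0 ≤ A')
    (hX0 : 0 < X) (hX : X ≤ K * (b : ℝ) ^ j) (hj : j ≤ C * m) (hδ : δ = 1 / (2 * ((C : ℝ) + 1)))
    (hm : A' * K < (b : ℝ) ^ ((m : ℝ) / 2)) :
    A' / (b : ℝ) ^ m < X ^ (-δ) := by
  have hb1 : (1 : ℝ) ≤ b := by exact_mod_cast (show 1 ≤ b by omega)
  have hb0 : (0 : ℝ) < b := zero_lt_one.trans_le hb1
  have hK0 : 0 < K := zero_lt_one.trans_le hK
  have hδ0 : 0 < δ := hδ ▸ by positivity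
  have hδ1 : δ ≤ 1 := by
    rw [hδ, div_le_one (by positivity)]
    linarith [(Nat.cast_nonneg C : (0 : ℝ) ≤ C)]
  have h1 : X ^ δ ≤ K * (b : ℝ) ^ ((m : ℝ) / 2) := by
    refine (Real.rpow_le_rpow hX0.le hX hδ0.le).trans ?_
    rw [Real.mul_rpow hK0.le (by positivity), ← Real.rpow_natCast_mul hb0.le]
    refine mul_le_mul (Real.rpow_le_self_of_one_le hK hδ1) ?_ (by positivity) hK0.le
    refine Real.rpow_le_rpow_of_exponent_le hb1 ?_
    have hj' : (j : ℝ) ≤ C * m := by exact_mod_cast hj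
    refine (mul_le_mul_of_nonneg_right hj' hδ0.le).trans ?_
    rw [hδ, mul_one_div, div_le_iff₀ (by positivity)]
    linarith [(Nat.cast_nonneg m : (0 : ℝ) ≤ m)]
  rw [Real.rpow_neg hX0.le, ← one_div, div_lt_div_iff₀ (pow_pos hb0 m) (by positivity), one_mul]
  refine (mul_le_mul_of_nonneg_left h1 hA).trans_lt ?_
  rw [← mul_assoc, show ((b : ℝ) ^ m) = (b : ℝ) ^ ((m : ℝ) / 2) * (b : ℝ) ^ ((m : ℝ) / 2) by
    rw [← Real.rpow_add hb0, add_halves, Real.rpow_natCast]]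
  exact mul_lt_mul_of_pos_right hm (by positivity)

/-- **Repetitions force rationality.** -/
theorem rational_of_repetitions (hb : 2 ≤ b) (halg : IsAlgebraic ℚ α)
    (hP : ∀ N, |α * (b : ℝ) ^ N - P N| ≤ A) {C : ℕ}
    (hrep : ∀ M, ∃ m i j, M ≤ m ∧ i < j ∧ j ≤ C * m ∧
      P (j + m) - (b : ℤ) ^ m * P j = P (i + m) - (b : ℤ) ^ m * P i) :
    ∃ q : ℚ, α = q := by
  classical
  have hb1 : (1 : ℝ) < b := by exact_mod_cast hb
  have hb0 : (0 : ℝ) < b := zero_lt_one.trans hb1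
  have hbZ : (b : ℤ) ≠ 0 := by exact_mod_cast (show b ≠ 0 by omega)
  have hA0 : 0 ≤ A := (abs_nonneg _).trans (hP 0)
  set K := 1 + 2 * |α| + 2 * A with hK
  have hK1 : 1 ≤ K := by linarith [abs_nonneg α]
  obtain ⟨M₀, hM₀⟩ := pow_unbounded_of_one_lt (2 * A * K) hb1
  set δ := 1 / (2 * ((C : ℝ) + 1)) with hδ
  have hδ0 : 0 < δ := by positivity
  let R : ℕ → Prop := fun m => ∃ i j, i < j ∧ j ≤ C * m ∧
    P (j + m) - (b : ℤ) ^ m * P j = P (i + m) - (b : ℤ) ^ m * P i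
  set E := {m | 2 * M₀ ≤ m ∧ R m} with hE_def
  have hE : E.Infinite := Set.infinite_of_forall_exists_gt fun N => by
    obtain ⟨m, i, j, hm, h⟩ := hrep (2 * M₀ + N + 1)
    exact ⟨m, ⟨by omega, i, j, h⟩, by omega⟩
  choose! i j hij hjC heq using fun m (hm : m ∈ E) => hm.2
  set p := fun m => P (j m) - P (i m) with hp
  have hbig : ∀ m ∈ E, 2 * A * K < (b : ℝ) ^ ((m : ℝ) / 2) := fun m hm => by
    refine hM₀.trans_le ?_
    rw [← Real.rpow_natCast]
    refine Real.rpow_le_rpow_of_exponent_le hb1.le ?_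
    have h : ((2 * M₀ : ℕ) : ℝ) ≤ m := Nat.cast_le.2 hm.1
    push_cast at h
    linarith
  have hform : ∀ m ∈ E,
      |α * (b : ℝ) ^ j m - α * (b : ℝ) ^ i m - (p m : ℝ)| ≤ 2 * A / (b : ℝ) ^ m :=
    fun m hm => abs_form_le hb hP (heq m hm)
  have hpk : ∀ m ∈ E, |(p m : ℝ)| ≤ K * (b : ℝ) ^ j m := fun m hm =>
    (abs_sub_le hb hP (hij m hm).le).trans
      (mul_le_mul_of_nonneg_right (by linarith) (by positivity))
  have hik : ∀ m ∈ E, |((b : ℝ) ^ i m)| ≤ K * (b : ℝ) ^ j m := fun m hm => by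
    rw [abs_of_pos (pow_pos hb0 _)]
    exact (pow_le_pow_right₀ hb1.le (hij m hm).le).trans
      (le_mul_of_one_le_left (by positivity) hK1)
  -- one hyperplane for infinitely many windows
  obtain ⟨v, hv, hvE⟩ := exists_infinite_hyperplane (n := 2) one_le_two (onePlace b hb 3)
    (L := !![α, -α, -1; 1, 0, 0; 0, 1, 0]) (by simp [det_fin_three]) (fun a c => by
      fin_cases a <;> fin_cases c <;>
        simp [halg, halg.neg, isAlgebraic_one, isAlgebraic_zero, isAlgebraic_one.neg])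
    hδ0 hE (fun m => ![(b : ℤ) ^ j m, (b : ℤ) ^ i m, p m]) (fun m => fun _ => ![j m, i m, 0])
    (fun m _ h => pow_ne_zero (j m) hbZ (by simpa using congrFun h 0))
    (fun m _ => divides_onePlace hb fun a => by fin_cases a <;> simp) fun m hm => by
      rw [vol_onePlace]
      set X := ‖castVec ![(b : ℤ) ^ j m, (b : ℤ) ^ i m, p m]‖
      have hX0 : 0 < X := norm_pos_iff.2 fun h => pow_ne_zero (j m) hb0.ne'
        (by simpa [castVec] using congrFun h 0)
      have hXK : X ≤ K * (b : ℝ) ^ j m := (pi_norm_le_iff_of_nonneg (by positivity)).2 fun a => by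
        fin_cases a
        · simpa [castVec] using le_mul_of_one_le_left (pow_nonneg hb0.le (j m)) hK1
        · simpa [castVec] using hik m hm
        · simpa [castVec] using hpk m hm
      have h := (hform m hm).trans_lt
        (small_solution hb hK1 (by positivity) hX0 hXK (hjC m hm) hδ (hbig m hm))
      simp [Fin.prod_univ_succ, Fin.sum_univ_succ, pow_add, abs_of_pos hb0]
      rw [show α * (b : ℝ) ^ j m + (-(α * (b : ℝ) ^ i m) + -(p m : ℝ)) =
        α * (b : ℝ) ^ j m - α * (b : ℝ) ^ i m - (p m : ℝ) by ring, mul_comm _ (X ^ (-δ))]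
      exact mul_lt_mul_of_pos_right h (by positivity)
  -- the distances are bounded
  set c := (v 0 : ℝ) + v 2 * α with hc
  by_cases hc0 : c = 0
  · rcases eq_or_ne (v 2) 0 with h2 | h2
    · obtain ⟨m, hm, hvm⟩ := hvE.nonempty
      rw [hc, h2, Int.cast_zero, zero_mul, add_zero, Int.cast_eq_zero] at hc0
      refine absurd (funext fun a => ?_) hv
      simp [dotProduct, Fin.sum_univ_succ] at hvm
      fin_cases a
      · exact hc0
      · simpa [hc0, h2, show b ≠ 0 by omega] using hvm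
      · exact h2
    · refine ⟨-(v 0 : ℚ) / v 2, ?_⟩
      push_cast
      rw [eq_div_iff (Int.cast_ne_zero.2 h2)]
      linarith
  set R₁ := (|(v 2 : ℝ)| * (2 * A) + |(v 1 : ℝ) - v 2 * α|) / |c|
  have hs : ∀ m ∈ {m ∈ E | v ⬝ᵥ ![(b : ℤ) ^ j m, (b : ℤ) ^ i m, p m] = 0},
      j m - i m ∈ Set.Iic ⌈R₁⌉₊ := by
    rintro m ⟨hm, hvm⟩
    simp [dotProduct, Fin.sum_univ_succ, ← add_assoc] at hvm
    have hR : (v 0 : ℝ) * (b : ℝ) ^ j m + v 1 * (b : ℝ) ^ i m + v 2 * (p m : ℝ) = 0 := by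
      exact_mod_cast hvm
    set d := j m - i m with hd
    have hjd : j m = i m + d := (Nat.add_sub_of_le (hij m hm).le).symm
    have h1 : |c * (b : ℝ) ^ d + ((v 1 : ℝ) - v 2 * α)| * (b : ℝ) ^ i m ≤
        |(v 2 : ℝ)| * (2 * A) := by
      rw [← abs_of_pos (pow_pos hb0 (i m)), ← abs_mul,
        show (c * (b : ℝ) ^ d + ((v 1 : ℝ) - v 2 * α)) * (b : ℝ) ^ i m =
          v 2 * (α * (b : ℝ) ^ j m - α * (b : ℝ) ^ i m - (p m : ℝ)) by
          rw [hc]; rw [hjd, pow_add] at hR ⊢; linear_combination hR, abs_mul]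
      exact mul_le_mul_of_nonneg_left
        ((hform m hm).trans (div_le_self (by linarith) (one_le_pow₀ hb1.le))) (abs_nonneg _)
    have h2 := (le_mul_of_one_le_right (abs_nonneg _) (one_le_pow₀ hb1.le)).trans h1
    have h3 : (b : ℝ) ^ d ≤ R₁ := by
      simp only [R₁]
      rw [le_div_iff₀ (abs_pos.2 hc0)]
      have h4 := abs_sub_abs_le_abs_sub (c * (b : ℝ) ^ d) (-((v 1 : ℝ) - v 2 * α))
      rw [abs_neg, sub_neg_eq_add, abs_mul, abs_of_pos (pow_pos hb0 d)] at h4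
      linarith
    refine Nat.cast_le.1 (le_trans ?_ (h3.trans (Nat.le_ceil R₁)))
    exact_mod_cast (Nat.lt_pow_self (show 1 < b by omega)).le
  -- one distance for infinitely many windows
  obtain ⟨d, hd⟩ : ∃ d, {m ∈ E | j m - i m = d}.Infinite := by
    by_contra! h
    refine hvE (((Set.finite_Iic ⌈R₁⌉₊).biUnion fun d _ => h d).subset fun m hm => ?_)
    simp only [Set.mem_iUnion, exists_prop]
    exact ⟨j m - i m, hs m hm, hm.1, rfl⟩
  have hd0 : d ≠ 0 := by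
    obtain ⟨m, hm, h⟩ := hd.nonempty
    have := hij m hm
    omega
  set β := α * ((b : ℝ) ^ d - 1) with hβ
  have hform' : ∀ m ∈ {m ∈ E | j m - i m = d},
      |β * (b : ℝ) ^ i m - (p m : ℝ)| ≤ 2 * A / (b : ℝ) ^ m := by
    rintro m ⟨hm, hmd⟩
    refine le_of_eq_of_le (congrArg abs ?_) (hform m hm)
    rw [hβ, show j m = i m + d by have := hij m hm; omega, pow_add]
    ring
  obtain ⟨u, hu, huE⟩ := exists_infinite_hyperplane (n := 1) le_rfl (onePlace b hb 2)
    (L := !![β, -1; 1, 0]) (by simp [det_fin_two]) (fun a c => by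
      have hβa : IsAlgebraic ℚ β := halg.mul (((isAlgebraic_natCast b).pow d).sub isAlgebraic_one)
      fin_cases a <;> fin_cases c <;>
        simp [hβa, isAlgebraic_one, isAlgebraic_zero, isAlgebraic_one.neg])
    hδ0 hd (fun m => ![(b : ℤ) ^ i m, p m]) (fun m => fun _ => ![i m, 0])
    (fun m _ h => pow_ne_zero (i m) hbZ (by simpa using congrFun h 0))
    (fun m _ => divides_onePlace hb fun a => by fin_cases a <;> simp) fun m hm => by
      rw [vol_onePlace]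
      set X := ‖castVec ![(b : ℤ) ^ i m, p m]‖
      have hX0 : 0 < X := norm_pos_iff.2 fun h => pow_ne_zero (i m) hb0.ne'
        (by simpa [castVec] using congrFun h 0)
      have hXK : X ≤ K * (b : ℝ) ^ j m := (pi_norm_le_iff_of_nonneg (by positivity)).2 fun a => by
        fin_cases a
        · simpa [castVec] using hik m hm.1
        · simpa [castVec] using hpk m hm.1
      have h := (hform' m hm).trans_lt
        (small_solution hb hK1 (by positivity) hX0 hXK (hjC m hm.1) hδ (hbig m hm.1))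
      simp [Fin.prod_univ_succ, Fin.sum_univ_succ, abs_of_pos hb0]
      rw [← sub_eq_add_neg, mul_comm _ (X ^ (-δ))]
      exact mul_lt_mul_of_pos_right h (by positivity)
  have hR : ∀ m ∈ {m ∈ {m ∈ E | j m - i m = d} | u ⬝ᵥ ![(b : ℤ) ^ i m, p m] = 0},
      (u 0 : ℝ) * (b : ℝ) ^ i m + u 1 * (p m : ℝ) = 0 := fun m hm => by
    have h := hm.2
    simp [dotProduct, Fin.sum_univ_succ] at h
    exact_mod_cast h
  have hu1 : (u 1 : ℝ) ≠ 0 := fun h1 => by
    obtain ⟨m, hm⟩ := huE.nonempty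
    have h := hR m hm
    rw [h1, zero_mul, add_zero] at h
    have h0 := (mul_eq_zero.1 h).resolve_right (pow_pos hb0 _).ne'
    exact hu (funext fun a => by
      fin_cases a
      · exact_mod_cast h0
      · exact_mod_cast h1)
  have hz : β + (u 0 : ℝ) / u 1 = 0 := eq_zero_of_le_div_pow hb huE (A := 2 * A) fun m hm => by
    refine le_trans ?_ (hform' m hm.1)
    rw [show β * (b : ℝ) ^ i m - (p m : ℝ) = (β + (u 0 : ℝ) / u 1) * (b : ℝ) ^ i m by
      field_simp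
      linear_combination -(hR m hm), abs_mul, abs_of_pos (pow_pos hb0 _)]
    exact le_mul_of_one_le_right (abs_nonneg _) (one_le_pow₀ hb1.le)
  refine ⟨-(u 0 : ℚ) / (u 1 * ((b : ℚ) ^ d - 1)), ?_⟩
  push_cast
  have h1 : (b : ℝ) ^ d - 1 ≠ 0 := sub_ne_zero.2 (one_lt_pow₀ hb1 hd0).ne'
  rw [eq_div_iff (mul_ne_zero hu1 h1)]
  rw [hβ] at hz
  field_simp at hz
  linarith

end FA.DigitComplexity

end
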