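import Fermat.Agent.CobhamTheorem.Main
import Fermat.Agent.DigitComplexity.Repetitions
import Mathlib.Analysis.SpecificLimits.Basic

/-!
# The complexity of the digits of algebraic numbers

The digits of an irrational algebraic number have more than linearly many factors, and a sequence
with a finite kernel has only linearly many, so automatic numbers are rational or transcendental.
-/

set_option autoImplicit false

noncomputable section

namespace FA.DigitComplexity

open Finset

/-- The factors of length `m` of a sequence. -/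
def factors {β : Type*} (a : ℕ → β) (m : ℕ) : Set (Fin m → β) :=
  {w | ∃ i, w = fun (t : Fin m) => a (i + t)}

theorem finite_factors {β : Type*} {a : ℕ → β} (ha : (Set.range a).Finite) (m : ℕ) :
    (factors a m).Finite :=
  (Set.Finite.pi fun _ : Fin m => ha).subset (by rintro w ⟨i, rfl⟩ t -; exact ⟨_, rfl⟩)

/-- A sequence with a finite kernel has a finite range. -/
theorem finite_range_of_kern {β : Type*} {a : ℕ → β} {k : ℕ} (hk : 2 ≤ k)
    (ha : (Cobham.kern k a).Finite) : (Set.range a).Finite := by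
  refine (ha.image fun s => s 0).subset ?_
  rintro _ ⟨n, rfl⟩
  exact ⟨_, ⟨n, n, Nat.lt_pow_self (show 1 < k by omega), rfl⟩, by simp⟩

/-- **A sequence with a finite kernel has linear complexity.** -/
theorem complexity_le_of_kern {β : Type*} {a : ℕ → β} {k : ℕ} (hk : 2 ≤ k)
    (ha : (Cobham.kern k a).Finite) : ∃ C, ∀ m, 1 ≤ m → (factors a m).ncard ≤ C * m := by
  classical
  haveI : Fintype (Cobham.kern k a) := ha.fintype
  haveI : Fintype (Set.range a) := (finite_range_of_kern hk ha).fintype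
  set T := Fintype.card (Cobham.kern k a → Set.range a) with hT
  refine ⟨k * (T * T), fun m hm => ?_⟩
  have hex : ∃ e, m ≤ k ^ e := ⟨m, (Nat.lt_pow_self (by omega)).le⟩
  set f := Nat.find hex with hf
  have hme : m ≤ k ^ f := Nat.find_spec hex
  have hke : k ^ f ≤ k * m := by
    rcases Nat.eq_zero_or_pos f with h0 | h0
    · rw [h0, pow_zero]
      exact Nat.one_le_iff_ne_zero.2 (Nat.mul_ne_zero (by omega) (by omega))
    · have h := Nat.find_min hex (show f - 1 < f by omega)
      rw [show f = f - 1 + 1 by omega, pow_succ, mul_comm k]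
      exact Nat.mul_le_mul_right k (not_le.1 h).le
  let sec : Fin (k ^ f) → Cobham.kern k a :=
    fun r => ⟨fun n => a (k ^ f * n + r), f, r, r.2, rfl⟩
  let val : ℕ → Cobham.kern k a → Set.range a := fun q s =>
    ⟨s.1 q, by obtain ⟨e, r, _, h⟩ := s.2; exact ⟨_, (congrFun h q).symm⟩⟩
  let G : Fin (k ^ f) × (Cobham.kern k a → Set.range a) × (Cobham.kern k a → Set.range a) →
      Fin m → β := fun x t =>
    if h : (x.1 : ℕ) + t < k ^ f then x.2.1 (sec ⟨_, h⟩)
    else x.2.2 (sec ⟨(x.1 : ℕ) + t - k ^ f, by have := x.1.2; have := t.2; omega⟩)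
  have hsub : factors a m ⊆ Set.range G := by
    rintro w ⟨i, rfl⟩
    have hpos : 0 < k ^ f := pow_pos (by omega) f
    refine ⟨(⟨i % k ^ f, Nat.mod_lt _ hpos⟩, val (i / k ^ f), val (i / k ^ f + 1)),
      funext fun t => ?_⟩
    have h := Nat.div_add_mod i (k ^ f)
    simp only [G]
    split_ifs with ht
    · show a (k ^ f * (i / k ^ f) + (i % k ^ f + t)) = _
      rw [← add_assoc, h]
    · show a (k ^ f * (i / k ^ f + 1) + (i % k ^ f + t - k ^ f)) = _
      congr 1
      rw [Nat.mul_add, Nat.mul_one]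
      omega
  refine (Set.ncard_le_ncard hsub (Set.finite_range G)).trans ((Finite.card_range_le G).trans ?_)
  rw [Nat.card_eq_fintype_card, Fintype.card_prod, Fintype.card_prod, Fintype.card_fin, ← hT,
    mul_right_comm k]
  exact Nat.mul_le_mul_right _ hke

variable {b : ℕ} {α A : ℝ} {a P : ℕ → ℤ}

theorem window_congr (hPa : ∀ N, P (N + 1) = b * P N + a N) {i j : ℕ} :
    ∀ m, (∀ t < m, a (i + t) = a (j + t)) →
      P (j + m) - (b : ℤ) ^ m * P j = P (i + m) - (b : ℤ) ^ m * P i := by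
  intro m
  induction m with
  | zero => simp
  | succ m ih =>
    intro h
    rw [← add_assoc, ← add_assoc, hPa, hPa, h m (Nat.lt_succ_self m), pow_succ]
    linear_combination (b : ℤ) * ih fun t ht => h t (ht.trans (Nat.lt_succ_self m))

/-- Linearly many factors among the digits of an algebraic number make it rational. -/
theorem rational_of_complexity (hb : 2 ≤ b) (halg : IsAlgebraic ℚ α)
    (hP : ∀ N, |α * (b : ℝ) ^ N - P N| ≤ A) (hPa : ∀ N, P (N + 1) = b * P N + a N)
    (ha : (Set.range a).Finite) {C : ℕ} (h : ∀ M, ∃ m, M ≤ m ∧ (factors a m).ncard ≤ C * m) :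
    ∃ q : ℚ, α = q := by
  classical
  refine rational_of_repetitions hb halg hP (C := C) fun M => ?_
  obtain ⟨m, hm, hcard⟩ := h M
  rw [Set.ncard_eq_toFinset_card _ (finite_factors ha m)] at hcard
  obtain ⟨i, hi, j, hj, hne, heq⟩ := exists_ne_map_eq_of_card_lt_of_maps_to
    (s := range (C * m + 1)) (t := (finite_factors ha m).toFinset)
    (by rw [card_range]; exact Nat.lt_succ_of_le hcard)
    (f := fun i (t : Fin m) => a (i + t)) fun i _ =>
      (Set.Finite.mem_toFinset _).2 ⟨i, rfl⟩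
  rw [mem_range] at hi hj
  have hw : ∀ t < m, a (i + t) = a (j + t) := fun t ht => congrFun heq ⟨t, ht⟩
  rcases lt_or_gt_of_ne hne with h' | h'
  · exact ⟨m, i, j, hm, h', by omega, window_congr hPa m hw⟩
  · exact ⟨m, j, i, hm, h', by omega, (window_congr hPa m hw).symm⟩

/-- **The theorem of Adamczewski and Bugeaud.** -/
theorem complexity_of_algebraic (hb : 2 ≤ b) (hirr : Irrational α) (halg : IsAlgebraic ℚ α)
    (C : ℕ) :
    ∃ M, ∀ m, M ≤ m → C * m < (factors (fun n => ⌊α * (b : ℝ) ^ (n + 1)⌋ % (b : ℤ)) m).ncard := by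
  by_contra! h
  have hbZ : (0 : ℤ) < b := by exact_mod_cast (show 0 < b by omega)
  obtain ⟨q, hq⟩ := rational_of_complexity hb halg (A := 1)
    (P := fun N => ⌊α * (b : ℝ) ^ N⌋) (a := fun n => ⌊α * (b : ℝ) ^ (n + 1)⌋ % (b : ℤ))
    (fun N => by
      rw [abs_le]
      constructor <;>
        linarith [Int.floor_le (α * (b : ℝ) ^ N), Int.lt_floor_add_one (α * (b : ℝ) ^ N)])
    (fun N => by
      set x := α * (b : ℝ) ^ N with hx
      rw [show α * (b : ℝ) ^ (N + 1) = x * b by rw [hx, pow_succ]; ring]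
      have h1 : (b : ℤ) * ⌊x⌋ ≤ ⌊x * b⌋ := Int.le_floor.2 (by
        push_cast
        rw [mul_comm]
        exact mul_le_mul_of_nonneg_right (Int.floor_le x) (Nat.cast_nonneg b))
      have h2 : ⌊x * b⌋ < (b : ℤ) * (⌊x⌋ + 1) := Int.floor_lt.2 (by
        push_cast
        rw [mul_comm]
        exact mul_lt_mul_of_pos_left (Int.lt_floor_add_one x) (by exact_mod_cast hbZ))
      conv_rhs => rw [show ⌊x * b⌋ = (⌊x * b⌋ - (b : ℤ) * ⌊x⌋) + (b : ℤ) * ⌊x⌋ by ring,
        Int.add_mul_emod_self_left, Int.emod_eq_of_lt (by linarith) (by linarith)]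
      ring)
    ((Set.finite_Ico (0 : ℤ) b).subset (by
      rintro _ ⟨n, rfl⟩
      exact ⟨Int.emod_nonneg _ hbZ.ne', Int.emod_lt_of_pos _ hbZ⟩)) h
  exact hirr ⟨q, hq.symm⟩

/-- The tails of a bounded series in base `b`. -/
theorem tail_eq {a : ℕ → ℝ} (hs : Summable fun n => a n / (b : ℝ) ^ (n + 1)) (hb : 2 ≤ b) :
    (b : ℝ) * ∑' n, a n / (b : ℝ) ^ (n + 1) = a 0 + ∑' n, a (n + 1) / (b : ℝ) ^ (n + 1) := by
  have hb0 : (b : ℝ) ≠ 0 := by exact_mod_cast (show b ≠ 0 by omega)
  rw [hs.tsum_eq_zero_add, mul_add, ← tsum_mul_left, zero_add, pow_one, mul_div_cancel₀ _ hb0]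
  congr 1
  exact tsum_congr fun n => by rw [pow_succ' (b : ℝ) (n + 1)]; field_simp

/-- **Automatic numbers are rational or transcendental.** -/
theorem transcendental_of_kern (hb : 2 ≤ b) {k : ℕ} (hk : 2 ≤ k)
    (ha : (Cobham.kern k a).Finite) (hirr : Irrational (∑' n, (a n : ℝ) / (b : ℝ) ^ (n + 1))) :
    Transcendental ℚ (∑' n, (a n : ℝ) / (b : ℝ) ^ (n + 1)) := by
  intro halg
  have hb1 : (1 : ℝ) < b := by exact_mod_cast hb
  have hfin := finite_range_of_kern hk ha
  obtain ⟨B, hB⟩ := (hfin.image fun z : ℤ => |(z : ℝ)|).bddAbove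
  have hBn : ∀ n, |(a n : ℝ)| ≤ B := fun n => hB ⟨a n, ⟨n, rfl⟩, rfl⟩
  have hgeo : Summable fun n : ℕ => B * ((b : ℝ)⁻¹) ^ (n + 1) :=
    Summable.mul_left B ((summable_geometric_of_lt_one (by positivity)
      (inv_lt_one_of_one_lt₀ hb1)).comp_injective (add_left_injective 1))
  have hle : ∀ N n, ‖(a (n + N) : ℝ) / (b : ℝ) ^ (n + 1)‖ ≤ B * ((b : ℝ)⁻¹) ^ (n + 1) :=
    fun N n => by
      rw [norm_div, norm_pow, Real.norm_natCast, inv_pow, ← div_eq_mul_inv, Real.norm_eq_abs]
      exact div_le_div_of_nonneg_right (hBn _) (by positivity)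
  set tail := fun N => ∑' n, (a (n + N) : ℝ) / (b : ℝ) ^ (n + 1) with htail
  set P : ℕ → ℤ := fun N => Nat.rec 0 (fun N p => (b : ℤ) * p + a N) N with hP_def
  have hP : ∀ N, tail 0 * (b : ℝ) ^ N - P N = tail N := fun N => by
    induction N with
    | zero => simp [hP_def]
    | succ N ih =>
      have h := tail_eq (Summable.of_norm_bounded hgeo (hle N)) hb
      simp only [zero_add, add_right_comm _ 1 N] at h
      have e : (P (N + 1) : ℝ) = b * P N + a N := by simp [hP_def]
      rw [e, pow_succ]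
      simp only [htail, add_assoc] at ih h ⊢
      linear_combination (b : ℝ) * ih + h
  obtain ⟨C, hC⟩ := complexity_le_of_kern hk ha
  obtain ⟨q, hq⟩ := rational_of_complexity hb halg (P := P) (a := a)
    (A := ∑' n : ℕ, B * ((b : ℝ)⁻¹) ^ (n + 1))
    (fun N => by
      have e : ∑' n, (a n : ℝ) / (b : ℝ) ^ (n + 1) = tail 0 := by simp [htail]
      rw [e, hP N]
      exact tsum_of_norm_bounded hgeo.hasSum (hle N))
    (fun N => rfl) hfin fun M => ⟨max M 1, le_max_left _ _, hC _ (le_max_right _ _)⟩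
  exact hirr ⟨q, hq.symm⟩

end FA.DigitComplexity

end
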